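import Mathlib
import Fermat.Prelude.Def_FLTPrelim_FreyPackage
import Fermat.Prelude.Def_FLTPrelim_GaloisRep
import Fermat.Prelude.Def_FLTPrelim_Modularity
import Fermat.Prelude.Def_FLTPrelim_ModularRep
import Fermat.Prelude.Def_FLTPrelim_Ramification
import Fermat.Prelude.Def_FLTPrelim_CofixedLine
import Fermat.Prelude.Def_FreyPackage_IsConductorLevel

set_option autoImplicit false
open WeierstrassCurve WeierstrassCurve.Affine WeierstrassCurve.Affine.Point
open CuspForm ModularFormClass UpperHalfPlane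
open FreyPackage

namespace Fermat.Agent.S45.Wiring

/-- Restriction of a cusp form to a smaller subgroup (same underlying function). -/
noncomputable def restrictOfLE {Γ Γ' : Subgroup (GL (Fin 2) ℝ)} {k : ℤ} (h : Γ' ≤ Γ)
    (f : CuspForm Γ k) : CuspForm Γ' k where
  toFun := f
  slash_action_eq' γ hγ := f.slash_action_eq' γ (h hγ)
  holo' := f.holo'
  zero_at_cusps' hc := f.zero_at_cusps' (hc.mono h)

theorem restrictOfLE_ne_zero {Γ Γ' : Subgroup (GL (Fin 2) ℝ)} {k : ℤ} (h : Γ' ≤ Γ)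
    (f : CuspForm Γ k) (hf : f ≠ 0) : restrictOfLE h f ≠ 0 := by
  intro h0
  apply hf
  ext z
  exact DFunLike.congr_fun h0 z

/-- A nonzero weight-2 cusp form on `Γ₀(M)` with `M ∣ 2` gives one on `Γ₀(2)`. -/
theorem exists_level_two_of_dvd_two {M : ℕ} (hM : M ∣ 2)
    (f : CuspForm (CongruenceSubgroup.Gamma0 M) 2) (hf : f ≠ 0) :
    ∃ g : CuspForm (CongruenceSubgroup.Gamma0 2) 2, g ≠ 0 := by
  have hle : (CongruenceSubgroup.Gamma0 2 : Subgroup (GL (Fin 2) ℝ)) ≤
      (CongruenceSubgroup.Gamma0 M : Subgroup (GL (Fin 2) ℝ)) := by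
    apply Subgroup.map_mono
    intro γ hγ
    rw [CongruenceSubgroup.Gamma0_mem] at hγ ⊢
    have h2 : ((2 : ℕ) : ℤ) ∣ γ 1 0 := (ZMod.intCast_zmod_eq_zero_iff_dvd _ 2).1 hγ
    have hM' : (M : ℤ) ∣ ((2 : ℕ) : ℤ) := Int.natCast_dvd_natCast.2 hM
    exact (ZMod.intCast_zmod_eq_zero_iff_dvd _ M).2 (hM'.trans h2)
  exact ⟨restrictOfLE hle f, restrictOfLE_ne_zero hle f hf⟩

/-- Stripping all odd primes from a conductor level. -/
theorem exists_modularRep_dvd_two (P : FreyPackage)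
    (hirr : GaloisRepIsIrreducible (K := AlgebraicClosure ℚ) ℚ P.freyCurve P.p)
    (h05 : ∀ {q : ℕ}, q.Prime → q ≠ 2 → q ≠ P.p → P.GaloisRepUnramifiedAt q)
    (h43 : ∀ {N q : ℕ}, P.IsConductorLevel N → q.Prime → q ≠ 2 → q ≠ P.p → q ∣ N →
      GaloisRepIsIrreducible (K := AlgebraicClosure ℚ) ℚ P.freyCurve P.p →
      P.ModularRepOfLevel N → P.GaloisRepUnramifiedAt q →
      ∃ M : ℕ, M ∣ N ∧ ¬ q ∣ M ∧ P.ModularRepOfLevel M)
    (h44 : ∀ {N : ℕ}, P.IsConductorLevel N → P.p ∣ N →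
      GaloisRepIsIrreducible (K := AlgebraicClosure ℚ) ℚ P.freyCurve P.p →
      P.ModularRepOfLevel N → ∃ M : ℕ, M ∣ N ∧ ¬ P.p ∣ M ∧ P.ModularRepOfLevel M) :
    ∀ N : ℕ, P.IsConductorLevel N → P.ModularRepOfLevel N →
      ∃ M : ℕ, M ∣ 2 ∧ P.ModularRepOfLevel M := by
  intro N
  induction N using Nat.strong_induction_on with
  | _ N ih =>
    intro hcond hmod
    by_cases hodd : ∃ q : ℕ, q.Prime ∧ q ≠ 2 ∧ q ∣ N
    · obtain ⟨q, hq, hq2, hqN⟩ := hodd
      have key : ∃ M : ℕ, M ∣ N ∧ ¬ q ∣ M ∧ P.ModularRepOfLevel M := by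
        by_cases hqp : q = P.p
        · subst hqp
          exact h44 hcond hqN hirr hmod
        · exact h43 hcond hq hq2 hqp hqN hirr hmod (h05 hq hq2 hqp)
      obtain ⟨M, hMN, hqM, hmodM⟩ := key
      have hMpos : 0 < M := Nat.pos_of_dvd_of_pos hMN hcond.pos
      have hMne : M ≠ N := fun h => hqM (h ▸ hqN)
      have hMlt : M < N := lt_of_le_of_ne (Nat.le_of_dvd hcond.pos hMN) hMne
      exact ih M hMlt (hcond.of_dvd hMN hMpos) hmodM
    · refine ⟨N, ?_, hmod⟩
      push Not at hodd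
      have hsq := hcond.squarefree
      have hpos := hcond.pos
      -- every prime factor of N is 2 and N is squarefree
      by_cases h1 : N = 1
      · simp [h1]
      · obtain ⟨r, hr, hrN⟩ := Nat.exists_prime_and_dvd h1
        have hr2 : r = 2 := by
          by_contra hne
          exact hodd r hr hne hrN
        subst hr2
        obtain ⟨k, rfl⟩ := hrN
        have hk1 : k = 1 := by
          by_contra hk
          obtain ⟨s, hs, hsk⟩ := Nat.exists_prime_and_dvd hk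
          have hs2 : s = 2 := by
            by_contra hne
            exact hodd s hs hne (Dvd.dvd.mul_left hsk 2)
          subst hs2
          obtain ⟨j, rfl⟩ := hsk
          have : ¬ Squarefree (2 * (2 * j)) := by
            intro hsq'
            have := hsq' 2 ⟨j, by ring⟩
            simp at this
          exact this hsq
        subst hk1
        simp

/-- Conditional wiring of `level_lowering_to_two`. -/
theorem level_two_of_hyps (P : FreyPackage)
    (hirr : GaloisRepIsIrreducible (K := AlgebraicClosure ℚ) ℚ P.freyCurve P.p)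
    (h06 : ∃ N : ℕ, P.IsConductorLevel N ∧ P.ModularRepOfLevel N)
    (h05 : ∀ {q : ℕ}, q.Prime → q ≠ 2 → q ≠ P.p → P.GaloisRepUnramifiedAt q)
    (h43 : ∀ {N q : ℕ}, P.IsConductorLevel N → q.Prime → q ≠ 2 → q ≠ P.p → q ∣ N →
      GaloisRepIsIrreducible (K := AlgebraicClosure ℚ) ℚ P.freyCurve P.p →
      P.ModularRepOfLevel N → P.GaloisRepUnramifiedAt q →
      ∃ M : ℕ, M ∣ N ∧ ¬ q ∣ M ∧ P.ModularRepOfLevel M)
    (h44 : ∀ {N : ℕ}, P.IsConductorLevel N → P.p ∣ N →
      GaloisRepIsIrreducible (K := AlgebraicClosure ℚ) ℚ P.freyCurve P.p →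
      P.ModularRepOfLevel N → ∃ M : ℕ, M ∣ N ∧ ¬ P.p ∣ M ∧ P.ModularRepOfLevel M) :
    ∃ f : CuspForm (CongruenceSubgroup.Gamma0 2) 2, f ≠ 0 := by
  obtain ⟨N, hcond, hmod⟩ := h06
  obtain ⟨M, hM2, f, W, 𝔪, hf, -⟩ :=
    exists_modularRep_dvd_two P hirr h05 h43 h44 N hcond hmod
  exact exists_level_two_of_dvd_two hM2 f hf.ne_zero

end Fermat.Agent.S45.Wiring
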